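/-
T16 / package EIS (helper36): the weight-2 Eisenstein series of level `p`,
`E(τ) = (p E₂(pτ) − E₂(τ)) / 24`, transformation behaviour.
-/
import Mathlib

set_option autoImplicit false

open UpperHalfPlane ModularForm EisensteinSeries Complex
open scoped MatrixGroups ModularForm Manifold Real

namespace Fermat.Agent.S16_helper36.Eis

/-- pointwise form of Mathlib's `E2_slash_action` -/
theorem E2_smul (γ : SL(2, ℤ)) (τ : ℍ) :
    E2 (γ • τ) = denom γ τ ^ 2 * (E2 τ - (1 / (2 * riemannZeta 2)) * D2 γ τ) := by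
  have h := congrFun (E2_slash_action γ) τ
  rw [SL_slash_apply] at h
  have hd : denom γ τ ≠ 0 := denom_ne_zero γ τ
  simp only [Pi.sub_apply, Pi.smul_apply, smul_eq_mul] at h
  rw [← h]
  field_simp

/-- `τ ↦ p τ` on the upper half plane. -/
noncomputable def dil (p : ℕ) [NeZero p] (τ : ℍ) : ℍ :=
  UpperHalfPlane.mk ((p : ℂ) * τ) (by
    have hp : (0 : ℝ) < p := by exact_mod_cast Nat.pos_of_ne_zero (NeZero.ne p)
    simpa using mul_pos hp τ.im_pos)

@[simp] lemma coe_dil (p : ℕ) [NeZero p] (τ : ℍ) : ((dil p τ : ℍ) : ℂ) = (p : ℂ) * τ := rfl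

/-- `τ ↦ (τ + j) / p` on the upper half plane. -/
noncomputable def shr (p : ℕ) [NeZero p] (j : ℤ) (τ : ℍ) : ℍ :=
  UpperHalfPlane.mk (((τ : ℂ) + j) / (p : ℂ)) (by
    have hp : (0 : ℝ) < p := by exact_mod_cast Nat.pos_of_ne_zero (NeZero.ne p)
    have : (((τ : ℂ) + j) / (p : ℂ)).im = τ.im / p := by
      rw [Complex.div_natCast_im]; simp
    rw [this]
    exact div_pos τ.im_pos hp)

@[simp] lemma coe_shr (p : ℕ) [NeZero p] (j : ℤ) (τ : ℍ) :
    ((shr p j τ : ℍ) : ℂ) = ((τ : ℂ) + j) / (p : ℂ) := rfl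

/-- The weight-2 Eisenstein series of level `p` (as a function). -/
noncomputable def eisFun (p : ℕ) [NeZero p] (τ : ℍ) : ℂ :=
  ((p : ℂ) * E2 (dil p τ) - E2 τ) / 24


/-- the entries of `γ ∈ SL(2,ℤ)` satisfy `ad - bc = 1`. -/
lemma det_eq_one' (γ : SL(2, ℤ)) : γ 0 0 * γ 1 1 - γ 0 1 * γ 1 0 = 1 := by
  have := γ.det_coe
  rw [Matrix.det_fin_two] at this
  exact this

lemma denom_SL_apply (γ : SL(2, ℤ)) (τ : ℍ) :
    denom γ τ = (γ 1 0 : ℂ) * τ + (γ 1 1 : ℂ) :=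
  ModularGroup.denom_apply γ τ

theorem eisFun_smul_of_mem_Gamma0 (p : ℕ) [NeZero p] (γ : SL(2, ℤ))
    (hγ : γ ∈ CongruenceSubgroup.Gamma0 p) (τ : ℍ) :
    eisFun p (γ • τ) = denom γ τ ^ 2 * eisFun p τ := by
  obtain ⟨c0, hc0⟩ : (p : ℤ) ∣ γ 1 0 := by
    have := (CongruenceSubgroup.Gamma0_mem).mp hγ
    exact (ZMod.intCast_zmod_eq_zero_iff_dvd _ _).mp this
  have hdet := det_eq_one' γ
  let γ' : SL(2, ℤ) := ⟨!![γ 0 0, p * γ 0 1; c0, γ 1 1], by
    rw [Matrix.det_fin_two_of]; rw [hc0] at hdet; linarith⟩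
  have hp0 : (p : ℂ) ≠ 0 := by exact_mod_cast NeZero.ne p
  have hden : denom γ' (dil p τ) = denom γ τ := by
    rw [denom_SL_apply, denom_SL_apply, coe_dil, hc0]
    simp [γ']
    ring
  have hsm : γ' • dil p τ = dil p (γ • τ) := by
    apply UpperHalfPlane.ext
    have h1 := denom_ne_zero γ τ
    rw [denom_SL_apply] at h1
    have h2 := denom_ne_zero γ' (dil p τ)
    rw [denom_SL_apply, coe_dil] at h2
    rw [coe_specialLinearGroup_apply, coe_dil, coe_dil, coe_specialLinearGroup_apply]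
    simp only [γ', hc0] at h1 h2 ⊢
    simp at h1 h2 ⊢
    field_simp
  have hD : D2 γ' (dil p τ) = D2 γ τ / p := by
    simp only [D2, hden]
    rw [hc0]
    simp [γ']
    field_simp
  unfold eisFun
  rw [← hsm, E2_smul γ' (dil p τ), E2_smul γ τ, hden, hD]
  field_simp
  ring


theorem eisFun_slash_of_mem_Gamma0 (p : ℕ) [NeZero p] (γ : SL(2, ℤ))
    (hγ : γ ∈ CongruenceSubgroup.Gamma0 p) : eisFun p ∣[(2 : ℤ)] γ = eisFun p := by
  funext τ
  rw [SL_slash_apply, eisFun_smul_of_mem_Gamma0 p γ hγ τ]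
  have hd : denom γ τ ≠ 0 := denom_ne_zero γ τ
  rw [zpow_neg, show ((2 : ℤ)) = ((2 : ℕ) : ℤ) by norm_num, zpow_natCast]
  field_simp

lemma dil_shr (p : ℕ) [NeZero p] (j : ℤ) (τ : ℍ) :
    ((dil p (shr p j τ) : ℍ) : ℂ) = (τ : ℂ) + j := by
  have hp0 : (p : ℂ) ≠ 0 := by exact_mod_cast NeZero.ne p
  rw [coe_dil, coe_shr]
  field_simp

/-- `E(-1/τ) = τ² · (-(1/p)) · E(τ/p)`. -/
theorem eisFun_S_smul (p : ℕ) [NeZero p] (τ : ℍ) :
    eisFun p (ModularGroup.S • τ) = (τ : ℂ) ^ 2 * (-(1 / (p : ℂ)) * eisFun p (shr p 0 τ)) := by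
  have hp0 : (p : ℂ) ≠ 0 := by exact_mod_cast NeZero.ne p
  have hτ : (τ : ℂ) ≠ 0 := ne_zero τ
  have h1 : dil p (ModularGroup.S • τ) = ModularGroup.S • shr p 0 τ := by
    apply UpperHalfPlane.ext
    rw [coe_dil, modular_S_smul, modular_S_smul]
    show (p : ℂ) * (-(τ : ℂ))⁻¹ = (-(((τ : ℂ) + ((0 : ℤ) : ℂ)) / (p : ℂ)))⁻¹
    rw [Int.cast_zero, add_zero, ← neg_div, inv_div, div_eq_mul_inv]
  have h2 : dil p (shr p 0 τ) = τ := by
    apply UpperHalfPlane.ext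
    rw [dil_shr]; simp
  unfold eisFun
  rw [h1, h2, E2_smul ModularGroup.S (shr p 0 τ), E2_smul ModularGroup.S τ,
    ModularGroup.denom_S, ModularGroup.denom_S, D2_S, D2_S, coe_shr]
  rw [Int.cast_zero, add_zero]
  field_simp
  ring


theorem eisFun_slash_S (p : ℕ) [NeZero p] :
    eisFun p ∣[(2 : ℤ)] ModularGroup.S = fun τ => -(1 / (p : ℂ)) * eisFun p (shr p 0 τ) := by
  funext τ
  have hτ : (τ : ℂ) ≠ 0 := ne_zero τ
  rw [SL_slash_apply, eisFun_S_smul, ModularGroup.denom_S,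
    zpow_neg, show ((2 : ℤ)) = ((2 : ℕ) : ℤ) by norm_num, zpow_natCast]
  field_simp

/-! ### holomorphy -/

lemma mdiff_comp_dil (p : ℕ) [NeZero p] {f : ℍ → ℂ} (hf : MDiff f) :
    MDiff (fun τ => f (dil p τ)) := by
  rw [UpperHalfPlane.mdifferentiable_iff] at hf ⊢
  have hp : (0 : ℝ) < p := by exact_mod_cast Nat.pos_of_ne_zero (NeZero.ne p)
  have hmaps : Set.MapsTo (fun z : ℂ => (p : ℂ) * z) {z | 0 < z.im} {z | 0 < z.im} := by
    intro z hz
    show 0 < ((p : ℂ) * z).im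
    have hz' : 0 < z.im := hz
    simpa using mul_pos hp hz'
  have h1 : DifferentiableOn ℂ ((f ∘ ofComplex) ∘ (fun z : ℂ => (p : ℂ) * z)) {z | 0 < z.im} :=
    hf.comp ((differentiable_id.const_mul (p : ℂ)).differentiableOn) hmaps
  refine h1.congr ?_
  intro z hz
  have hz' : 0 < ((p : ℂ) * z).im := hmaps hz
  simp only [Function.comp_apply, ofComplex_apply_of_im_pos hz, ofComplex_apply_of_im_pos hz']
  congr 1

theorem mdiff_eisFun (p : ℕ) [NeZero p] : MDiff (eisFun p) := by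
  have h1 : MDiff (fun τ => E2 (dil p τ)) := mdiff_comp_dil p E2_mdifferentiable
  have h2 : MDiff (fun τ => ((p : ℂ) * E2 (dil p τ) - E2 τ) * (1 / 24 : ℂ)) :=
    ((mdifferentiable_const.mul h1).sub E2_mdifferentiable).mul mdifferentiable_const
  convert h2 using 1
  funext τ
  simp [eisFun, div_eq_mul_inv]

/-! ### boundedness -/

lemma isBoundedAtImInfty_eisFun (p : ℕ) [NeZero p] : IsBoundedAtImInfty (eisFun p) := by
  obtain ⟨M, A, h⟩ := isBoundedAtImInfty_iff.mp isBoundedAtImInfty_E2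
  have hp : (1 : ℝ) ≤ p := by exact_mod_cast Nat.pos_of_ne_zero (NeZero.ne p)
  refine isBoundedAtImInfty_iff.mpr ⟨((p : ℝ) * M + M) / 24, A, fun z hz => ?_⟩
  have h1 : ‖E2 z‖ ≤ M := h z hz
  have h2 : ‖E2 (dil p z)‖ ≤ M := by
    apply h
    have : (dil p z).im = p * z.im := by
      show (((p : ℂ) * z)).im = _
      simp
    rw [this]
    nlinarith [z.im_pos]
  unfold eisFun
  rw [norm_div]
  have h24 : ‖(24 : ℂ)‖ = 24 := by norm_num
  rw [h24]
  apply div_le_div_of_nonneg_right _ (by norm_num)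
  calc ‖(p : ℂ) * E2 (dil p z) - E2 z‖ ≤ ‖(p : ℂ) * E2 (dil p z)‖ + ‖E2 z‖ := norm_sub_le _ _
    _ ≤ (p : ℝ) * M + M := by
      rw [norm_mul, Complex.norm_natCast]
      have : (0 : ℝ) ≤ p := by positivity
      nlinarith [norm_nonneg (E2 (dil p z))]

lemma isBoundedAtImInfty_eisFun_shr (p : ℕ) [NeZero p] (j : ℤ) :
    IsBoundedAtImInfty (fun τ => eisFun p (shr p j τ)) := by
  obtain ⟨M, A, h⟩ := isBoundedAtImInfty_iff.mp (isBoundedAtImInfty_eisFun p)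
  have hp : (0 : ℝ) < p := by exact_mod_cast Nat.pos_of_ne_zero (NeZero.ne p)
  refine isBoundedAtImInfty_iff.mpr ⟨M, p * A, fun z hz => ?_⟩
  apply h
  have : (shr p j z).im = z.im / p := by
    show ((((z : ℂ) + j) / (p : ℂ))).im = _
    rw [Complex.div_natCast_im]; simp
  rw [this, le_div_iff₀ hp]
  linarith

lemma isBoundedAtImInfty_eisFun_slash_S (p : ℕ) [NeZero p] :
    IsBoundedAtImInfty (eisFun p ∣[(2 : ℤ)] ModularGroup.S) := by
  rw [eisFun_slash_S]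
  obtain ⟨M, A, h⟩ := isBoundedAtImInfty_iff.mp (isBoundedAtImInfty_eisFun_shr p 0)
  refine isBoundedAtImInfty_iff.mpr ⟨‖-(1 / (p : ℂ))‖ * M, A, fun z hz => ?_⟩
  rw [norm_mul]
  exact mul_le_mul_of_nonneg_left (h z hz) (norm_nonneg _)


/-! ### cosets of `Γ₀(p)` in `SL(2,ℤ)` -/

/-- Every `γ ∈ SL(2,ℤ)` lies in `Γ₀(p)` or in `Γ₀(p) · S · T^j` for some `j` (`p` prime). -/
theorem mem_Gamma0_or_exists_coset (p : ℕ) [Fact p.Prime] (γ : SL(2, ℤ)) :
    γ ∈ CongruenceSubgroup.Gamma0 p ∨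
      ∃ j : ℤ, ∃ g ∈ CongruenceSubgroup.Gamma0 p, γ = g * ModularGroup.S * ModularGroup.T ^ j := by
  by_cases hc : (p : ℤ) ∣ γ 1 0
  · left
    rw [CongruenceSubgroup.Gamma0_mem]
    exact (ZMod.intCast_zmod_eq_zero_iff_dvd _ _).mpr hc
  · right
    have hp : Prime (p : ℤ) := Nat.prime_iff_prime_int.mp Fact.out
    have hcop : IsCoprime (p : ℤ) (γ 1 0) := (Prime.coprime_iff_not_dvd hp).mpr hc
    obtain ⟨x, y, hxy⟩ := hcop
    -- `y * c ≡ 1 mod p`; take `j = d * y`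
    refine ⟨γ 1 1 * y, γ * (ModularGroup.T ^ (γ 1 1 * y))⁻¹ * ModularGroup.S⁻¹, ?_, ?_⟩
    · rw [CongruenceSubgroup.Gamma0_mem]
      apply (ZMod.intCast_zmod_eq_zero_iff_dvd _ _).mpr
      have hentry : (γ * (ModularGroup.T ^ (γ 1 1 * y))⁻¹ * ModularGroup.S⁻¹) 1 0
          = γ 1 0 * (γ 1 1 * y) - γ 1 1 := by
        rw [← zpow_neg]
        simp only [Matrix.SpecialLinearGroup.coe_mul, ModularGroup.coe_T_zpow,
          Matrix.SpecialLinearGroup.coe_inv, ModularGroup.S]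
        simp [Matrix.mul_apply, Fin.sum_univ_two, Matrix.adjugate_fin_two]
        ring
      rw [hentry]
      refine ⟨-(γ 1 1 * x), ?_⟩
      linear_combination (γ 1 1) * hxy
    · group


theorem isBoundedAtImInfty_eisFun_slash (p : ℕ) [Fact p.Prime] (γ : SL(2, ℤ)) :
    IsBoundedAtImInfty (eisFun p ∣[(2 : ℤ)] γ) := by
  rcases mem_Gamma0_or_exists_coset p γ with hγ | ⟨j, g, hg, rfl⟩
  · rw [eisFun_slash_of_mem_Gamma0 p γ hγ]
    exact isBoundedAtImInfty_eisFun p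
  · rw [SlashAction.slash_mul, SlashAction.slash_mul, eisFun_slash_of_mem_Gamma0 p g hg, SL_slash
      (γ := ModularGroup.T ^ j)]
    apply IsBoundedAtImInfty.slash
    · have h10 : (ModularGroup.T ^ j) 1 0 = 0 := by
        rw [ModularGroup.coe_T_zpow]; simp
      show (((ModularGroup.T ^ j) 1 0 : ℤ) : ℝ) = 0
      rw [h10]; simp
    · exact isBoundedAtImInfty_eisFun_slash_S p

/-- **The weight-2 Eisenstein series of level `p`** as a modular form on `Γ₀(p)`: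
`E(τ) = (p E₂(pτ) − E₂(τ)) / 24 = (p-1)/24 + ∑ σ'(n) qⁿ`. -/
noncomputable def eis (p : ℕ) [Fact p.Prime] :
    ModularForm (CongruenceSubgroup.Gamma0 p) 2 where
  toFun := eisFun p
  slash_action_eq' := by
    intro γ hγ
    obtain ⟨γ0, hγ0, rfl⟩ := Subgroup.mem_map.mp hγ
    exact eisFun_slash_of_mem_Gamma0 p γ0 hγ0
  holo' := mdiff_eisFun p
  bdd_at_cusps' := by
    intro c hc
    rw [Subgroup.IsArithmetic.isCusp_iff_isCusp_SL2Z] at hc
    rw [OnePoint.isBoundedAt_iff_forall_SL2Z hc]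
    intro γ _
    exact isBoundedAtImInfty_eisFun_slash p γ

@[simp] lemma coe_eis (p : ℕ) [Fact p.Prime] : ((eis p : ModularForm _ 2) : ℍ → ℂ) = eisFun p := rfl

end Fermat.Agent.S16_helper36.Eis
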