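/-
T16 / package EIS (helper36): q-expansion of the weight-2 Eisenstein series of level `p`:
`E = (p-1)/24 + ∑_{n ≥ 1} σ'(n) qⁿ`, `σ'(n) = ∑_{d ∣ n, p ∤ d} d`.
-/
import Fermat.Agent.S16_helper36.EisBasic
import Fermat.Prelude.Def_FLTPrelim_Modularity
import Fermat.Prelude.Thm_CongruenceSubgroup_one_mem_strictPeriods_Gamma0

set_option autoImplicit false

open UpperHalfPlane hiding I
open ModularForm EisensteinSeries Complex
open scoped MatrixGroups ModularForm Manifold Real ArithmeticFunction.sigma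

namespace Fermat.Agent.S16_helper36.Eis

/-- `σ'(k)`: the sum of the divisors of `k` that are prime to `p`. -/
def sigmaP (p k : ℕ) : ℤ := ∑ d ∈ k.divisors.filter (fun d => ¬ p ∣ d), (d : ℤ)

/-- the divisors of `n` divisible by `p` are `p` times the divisors of `n / p`. -/
lemma sum_divisors_filter_dvd (p n : ℕ) (hp : 0 < p) (hn : n ≠ 0) (hpn : p ∣ n) :
    ∑ d ∈ n.divisors.filter (fun d => p ∣ d), (d : ℤ) = p * ∑ e ∈ (n / p).divisors, (e : ℤ) := by
  rw [Finset.mul_sum]
  symm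
  apply Finset.sum_nbij' (fun e => p * e) (fun d => d / p)
  · intro e he
    rw [Nat.mem_divisors] at he
    rw [Finset.mem_filter, Nat.mem_divisors]
    refine ⟨⟨?_, hn⟩, dvd_mul_right p e⟩
    obtain ⟨m, hm⟩ := hpn
    rw [hm, Nat.mul_div_cancel_left _ hp] at he
    rw [hm]
    exact Nat.mul_dvd_mul_left p he.1
  · intro d hd
    rw [Finset.mem_filter, Nat.mem_divisors] at hd
    rw [Nat.mem_divisors]
    obtain ⟨⟨hdn, _⟩, e, rfl⟩ := hd
    rw [Nat.mul_div_cancel_left _ hp]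
    obtain ⟨m, hm⟩ := hpn
    refine ⟨?_, ?_⟩
    · rw [hm, Nat.mul_div_cancel_left _ hp]
      rw [hm] at hdn
      exact (Nat.mul_dvd_mul_iff_left hp).mp hdn
    · rw [hm, Nat.mul_div_cancel_left _ hp]
      rintro rfl
      exact hn (by rw [hm]; simp)
  · intro e _
    exact Nat.mul_div_cancel_left _ hp
  · intro d hd
    rw [Finset.mem_filter] at hd
    exact Nat.mul_div_cancel' hd.2
  · intro e _
    push_cast
    ring

lemma sigma_one_eq (p n : ℕ) (hp : 0 < p) (hn : n ≠ 0) :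
    ((σ 1 n : ℕ) : ℤ) = sigmaP p n + (if p ∣ n then (p : ℤ) * ((σ 1 (n / p) : ℕ) : ℤ) else 0) := by
  have h1 : ((σ 1 n : ℕ) : ℤ) = ∑ d ∈ n.divisors, (d : ℤ) := by
    simp [ArithmeticFunction.sigma_one_apply]
  rw [h1, ← Finset.sum_filter_add_sum_filter_not n.divisors (fun d => p ∣ d), add_comm]
  congr 1
  split_ifs with hpn
  · rw [sum_divisors_filter_dvd p n hp hn hpn]
    simp [ArithmeticFunction.sigma_one_apply]
  · apply Finset.sum_eq_zero
    intro d hd
    rw [Finset.mem_filter, Nat.mem_divisors] at hd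
    exact absurd (hd.2.trans hd.1.1) hpn


/-- the coefficients of `E₂`. -/
noncomputable def a2 (m : ℕ) : ℂ := if m = 0 then 1 else -24 * (σ 1 m : ℂ)

lemma hasSum_E2 (τ : ℍ) :
    HasSum (fun m : ℕ => a2 m * cexp (2 * π * I * τ) ^ m) (E2 τ) := by
  simpa [a2, smul_eq_mul] using hasSum_qExpansion_E2 (z := τ)

lemma hasSum_E2_dil (p : ℕ) [NeZero p] (τ : ℍ) :
    HasSum (fun n : ℕ => (if p ∣ n then a2 (n / p) else 0) * cexp (2 * π * I * τ) ^ n)
      (E2 (dil p τ)) := by
  have hp : 0 < p := Nat.pos_of_ne_zero (NeZero.ne p)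
  have h := hasSum_E2 (dil p τ)
  have hinj : Function.Injective (fun m : ℕ => p * m) := fun a b hab =>
    Nat.eq_of_mul_eq_mul_left hp hab
  rw [← hinj.hasSum_iff]
  · convert h using 1
    funext m
    simp only [Function.comp_apply, dvd_mul_right, if_true, Nat.mul_div_cancel_left _ hp]
    congr 1
    rw [coe_dil, pow_mul, ← Complex.exp_nat_mul]
    congr 1
    ring_nf
  · intro n hn
    have : ¬ p ∣ n := by
      rintro ⟨m, rfl⟩
      exact hn ⟨m, rfl⟩
    simp [this]

/-- the coefficients of `E = (p E₂(pτ) − E₂(τ))/24`. -/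
noncomputable def cE (p : ℕ) (n : ℕ) : ℂ :=
  ((p : ℂ) * (if p ∣ n then a2 (n / p) else 0) - a2 n) / 24

lemma hasSum_eisFun (p : ℕ) [NeZero p] (τ : ℍ) :
    HasSum (fun n : ℕ => cE p n * cexp (2 * π * I * τ) ^ n) (eisFun p τ) := by
  have h1 := (hasSum_E2_dil p τ).mul_left (p : ℂ)
  have h2 := hasSum_E2 τ
  have h3 := (h1.sub h2).div_const 24
  have hfun : (fun n : ℕ => cE p n * cexp (2 * π * I * τ) ^ n) = fun i : ℕ =>
      ((p : ℂ) * ((if p ∣ i then a2 (i / p) else 0) * cexp (2 * π * I * τ) ^ i) -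
          a2 i * cexp (2 * π * I * τ) ^ i) / 24 := by
    funext n
    simp only [cE]
    ring
  rw [hfun]
  exact h3

lemma cE_zero (p : ℕ) : cE p 0 = ((p : ℂ) - 1) / 24 := by
  simp [cE, a2]

lemma cE_pos (p : ℕ) (hp : 0 < p) (n : ℕ) (hn : n ≠ 0) : cE p n = (sigmaP p n : ℂ) := by
  have hs := sigma_one_eq p n hp hn
  have hsC : ((σ 1 n : ℕ) : ℂ) = (sigmaP p n : ℂ) +
      (if p ∣ n then (p : ℂ) * ((σ 1 (n / p) : ℕ) : ℂ) else 0) := by
    have := congrArg (fun z : ℤ => (z : ℂ)) hs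
    push_cast at this
    rw [this]
  unfold cE a2
  rw [if_neg hn]
  split_ifs with hpn h0
  · exfalso
    obtain ⟨m, rfl⟩ := hpn
    rw [Nat.mul_div_cancel_left _ hp] at h0
    exact hn (by rw [h0]; simp)
  · rw [hsC, if_pos hpn]; ring
  · rw [hsC, if_neg hpn]; ring


theorem qExpansion_coeff_eis (p : ℕ) [Fact p.Prime] (n : ℕ) :
    (qExpansion 1 (eis p)).coeff n = cE p n := by
  have h := ModularFormClass.qExpansion_coeff_unique (h := 1) (c := cE p) one_pos
    (CongruenceSubgroup.one_mem_strictPeriods_Gamma0 p) (f := eis p) (fun τ => by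
      have := hasSum_eisFun p τ
      simpa [Function.Periodic.qParam, smul_eq_mul] using this) n
  exact h.symm

/-- constant term of the Eisenstein series of level `p`. -/
theorem qCoeff_eis_zero (p : ℕ) [Fact p.Prime] :
    ModularFormClass.qCoeff (eis p) 0 = ((p : ℂ) - 1) / 24 := by
  rw [ModularFormClass.qCoeff, qExpansion_coeff_eis, cE_zero]

/-- higher coefficients of the Eisenstein series of level `p`. -/
theorem qCoeff_eis (p : ℕ) [Fact p.Prime] (n : ℕ) (hn : n ≠ 0) :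
    ModularFormClass.qCoeff (eis p) n = (sigmaP p n : ℂ) := by
  rw [ModularFormClass.qCoeff, qExpansion_coeff_eis,
    cE_pos p (Nat.pos_of_ne_zero (NeZero.ne p)) n hn]

end Fermat.Agent.S16_helper36.Eis
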